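/-
helper39 (P-ORD, block (G-B), row 1143 ORD-GB-N2): `genericSectionN : GenericSectionN`.

Generic sections on ONE function field `F / K` (Riemann package, `K` algebraically closed of
characteristic `p`, a separating element exists) with value `1` at finitely many given places
("nodes"): for `n` large there is a function with poles only at `Qinf`, of exact order `n`, all of
whose zeros are simple and lie outside a given finite set, with value `1` at the nodes; moreover
one simple zero can be prescribed at a place `Q`.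

Pencil argument of helper93 (`Fermat.Agent.H93.FF.genericSection_abs`), modified:
`f_c = h₁ - c h₀` with `h₁ ∈ L(n Qinf - Q)`, `ord_Q h₁ = 1`, `ord_Qinf h₁ = -n`, `h₁ = 1` at the
nodes, and `h₀ ∈ L(n Qinf - 2 Q - ∑ nodes)` exact at `Q` and `Qinf`, nonvanishing at the other
zeros of `h₁`; `u = h₀ / h₁` is separating and Hurwitz (landed, `Fermat.Agent.H56.RH.hurwitz`)
bounds the branch locus.
-/
import Fermat.Agent.H94.ORD.JacInterfaces
import Fermat.Agent.H93.FF.GenericSectionAbs
import Fermat.Agent.H56.RH.HurwitzFinal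

set_option autoImplicit false
set_option linter.style.haveILetI false

noncomputable section

open AlgebraicCurve IntermediateField
open Fermat.Agent.H27.ESD (RiemannPackage ramIdx HurwitzStatement)
open Fermat.Agent.H93.FF

namespace Fermat.Agent.H39.ORD

variable {K F : Type} [Field K] [Field F] [Algebra K F]

/-- The divisor `∑_{v ∈ nodes} v`. -/
def gsnNodeDiv (nodes : Finset (Place K F)) : Divisor K F :=
  ∑ v ∈ nodes, Finsupp.single v (1 : ℤ)

open Classical in
theorem gsnNodeDiv_apply (nodes : Finset (Place K F)) (w : Place K F) :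
    gsnNodeDiv nodes w = if w ∈ nodes then 1 else 0 := by
  classical
  rw [gsnNodeDiv, Finsupp.finsetSum_apply]
  simp only [Finsupp.single_apply]
  rw [Finset.sum_ite_eq' nodes w]

theorem gsnNodeDiv_degree (hdeg : ∀ v : Place K F, v.deg = 1) (nodes : Finset (Place K F)) :
    Divisor.degree (gsnNodeDiv nodes) = (nodes.card : ℤ) := by
  classical
  rw [gsnNodeDiv, map_sum]
  simp only [Divisor.degree_single, hdeg, Nat.cast_one, mul_one]
  simp

/-- For `ord_v h = k` and `e` of order `≥ k` at `v`, at most one constant `t` makes `e + t h`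
vanish or have order `> k` at `v`. -/
theorem gsn_subsingleton_exact (v : Place K F) {e h : F} {k : ℤ} (hh : h ≠ 0)
    (hk : v.ord h = k) :
    {t : K | e + algebraMap K F t * h = 0 ∨ k < v.ord (e + algebraMap K F t * h)}.Subsingleton := by
  intro t₁ h₁ t₂ h₂
  by_contra hne
  simp only [Set.mem_ofPred_eq] at h₁ h₂
  have hsum : (e + algebraMap K F t₁ * h) + (-(e + algebraMap K F t₂ * h))
      = algebraMap K F (t₁ - t₂) * h := by
    rw [map_sub]; ring
  have hcc : algebraMap K F (t₁ - t₂) ≠ 0 := by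
    rw [Ne, map_eq_zero, sub_eq_zero]
    exact hne
  have hne' : algebraMap K F (t₁ - t₂) * h ≠ 0 := mul_ne_zero hcc hh
  have h0 : v.ord (algebraMap K F (t₁ - t₂) * h) = k := by
    rw [Place.ord_mul _ hcc hh, Fermat.Agent.H23.ord_algebraMap, zero_add, hk]
  have h1 : k + 1 ≤ v.ord ((e + algebraMap K F t₁ * h) + (-(e + algebraMap K F t₂ * h))) := by
    refine Fermat.Agent.H23.ord_add_ge v (by rw [hsum]; exact hne') (k + 1) ?_ ?_
    · rcases h₁ with h | h
      · exact Or.inl h
      · exact Or.inr (by omega)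
    · rcases h₂ with h | h
      · left; rw [h, neg_zero]
      · right; rw [Fermat.Agent.H23.ord_neg]; omega
  rw [hsum, h0] at h1
  omega

/-- `ord (c h) = ord h` for a nonzero constant, in a form adapted to `ord_add_ge`. -/
theorem gsn_ord_const_mul (v : Place K F) (t : K) {h : F} (hh : h ≠ 0) :
    algebraMap K F t * h = 0 ∨ v.ord (algebraMap K F t * h) = v.ord h := by
  by_cases ht : t = 0
  · left; simp [ht]
  · right
    rw [Place.ord_mul _ (by simpa using ht) hh, Fermat.Agent.H23.ord_algebraMap, zero_add]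

/-- The divisor `n Qinf - k Q - ∑ nodes`. -/
def gsnDiv (Qinf Q : Place K F) (nodes : Finset (Place K F)) (n k : ℤ) : Divisor K F :=
  Finsupp.single Qinf n - Finsupp.single Q k - gsnNodeDiv nodes

open Classical in
theorem gsnDiv_apply (Qinf Q : Place K F) (nodes : Finset (Place K F)) (n k : ℤ)
    (w : Place K F) :
    gsnDiv Qinf Q nodes n k w
      = (if w = Qinf then n else 0) - (if w = Q then k else 0) - (if w ∈ nodes then 1 else 0) := by
  classical
  rw [gsnDiv, Finsupp.sub_apply, Finsupp.sub_apply, Finsupp.single_apply, Finsupp.single_apply,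
    gsnNodeDiv_apply]
  have e1 : (Qinf = w) ↔ (w = Qinf) := eq_comm
  have e2 : (Q = w) ↔ (w = Q) := eq_comm
  simp only [e1, e2]

theorem gsnDiv_degree (hdeg : ∀ v : Place K F, v.deg = 1) (Qinf Q : Place K F)
    (nodes : Finset (Place K F)) (n k : ℤ) :
    Divisor.degree (gsnDiv Qinf Q nodes n k) = n - k - (nodes.card : ℤ) := by
  rw [gsnDiv, map_sub, map_sub, Divisor.degree_single, Divisor.degree_single, hdeg, hdeg,
    gsnNodeDiv_degree hdeg]
  simp

section RR

variable {g : ℕ} (pkg : RiemannPackage K F g) {c : ℤ}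
  (hc : ∀ D : Divisor K F, c ≤ Divisor.degree D →
    (Module.finrank K (riemannRochSpace D) : ℤ) = Divisor.degree D + 1 - (g : ℤ))

include pkg hc

/-- For `n` large there is a function with a pole of exact order `n` at `Qinf`, a zero of exact
order `k` at `Q`, no other poles, zeros at the nodes, and no zero at the points of `S` (outside
`Qinf`, `Q`, nodes). -/
theorem gsn_exists [Infinite K] (Qinf Q : Place K F) (hQ : Q ≠ Qinf)
    (nodes : Finset (Place K F)) (hinf : Qinf ∉ nodes) (hQn : Q ∉ nodes) (n k : ℕ)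
    (hn : c + 1 + (k : ℤ) + (nodes.card : ℤ) ≤ (n : ℤ)) (S : Finset (Place K F)) :
    ∃ f : F, f ≠ 0 ∧ Qinf.ord f = -(n : ℤ) ∧ Q.ord f = (k : ℤ) ∧
      (∀ v, v ≠ Qinf → v ≠ Q → 0 ≤ v.ord f) ∧ (∀ v ∈ nodes, 1 ≤ v.ord f) ∧
      ∀ v ∈ S, v ≠ Qinf → v ≠ Q → v ∉ nodes → v.ord f = 0 := by
  classical
  have hdeg := gsnDiv_degree pkg.deg_one Qinf Q nodes (n : ℤ) (k : ℤ)
  obtain ⟨f, hf, hge, hex⟩ := gs_exists_exact pkg hc (gsnDiv Qinf Q nodes (n : ℤ) (k : ℤ))
    (by rw [hdeg]; omega) (insert Q (insert Qinf S))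
  refine ⟨f, hf, ?_, ?_, ?_, ?_, ?_⟩
  · rw [hex Qinf (by simp), gsnDiv_apply, if_pos rfl, if_neg (Ne.symm hQ), if_neg hinf]
    ring
  · rw [hex Q (by simp), gsnDiv_apply, if_neg hQ, if_pos rfl, if_neg hQn]
    ring
  · intro v h1 h2
    have := hge v
    rw [gsnDiv_apply, if_neg h1, if_neg h2] at this
    split_ifs at this <;> omega
  · intro v hv
    have hv1 : v ≠ Qinf := fun h => hinf (h ▸ hv)
    have hv2 : v ≠ Q := fun h => hQn (h ▸ hv)
    have := hge v
    rw [gsnDiv_apply, if_neg hv1, if_neg hv2, if_pos hv] at this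
    omega
  · intro v hv h1 h2 h3
    rw [hex v (by simp [hv]), gsnDiv_apply, if_neg h1, if_neg h2, if_neg h3]
    ring

/-- The function `h₁`: pole of exact order `n` at `Qinf`, simple zero at `Q`, no other poles,
value `1` at the nodes. -/
theorem gsn_exists_h1 [Infinite K] (Qinf Q : Place K F) (hQ : Q ≠ Qinf)
    (nodes : Finset (Place K F)) (hinf : Qinf ∉ nodes) (hQn : Q ∉ nodes) (n : ℕ)
    (hn : c + 2 + (nodes.card : ℤ) ≤ (n : ℤ)) :
    ∃ h1 : F, h1 ≠ 0 ∧ Qinf.ord h1 = -(n : ℤ) ∧ Q.ord h1 = 1 ∧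
      (∀ v, v ≠ Qinf → v ≠ Q → 0 ≤ v.ord h1) ∧ ∀ v ∈ nodes, 1 ≤ v.ord (h1 - 1) := by
  classical
  -- `e₂`: nonvanishing at `Q`, zeros at the nodes
  obtain ⟨e2, e2ne, e2inf, e2Q, e2reg, e2nodes, -⟩ :=
    gsn_exists pkg hc Qinf Q hQ nodes hinf hQn n 0 (by push_cast; omega) ∅
  have e2Q' : Q.ord e2 = 0 := by simpa using e2Q
  obtain ⟨c₀, hc₀⟩ := Fermat.Agent.H23.exists_const_ord_sub_pos Q (pkg.deg_one Q)
    (f := e2) (Or.inr (by rw [e2Q']))
  have hc₀ne : c₀ ≠ 0 := by
    rintro rfl
    rcases hc₀ with h | h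
    · exact e2ne (by simpa using h)
    · rw [map_zero, sub_zero, e2Q'] at h
      exact lt_irrefl _ h
  set a : F := algebraMap K F c₀⁻¹ with ha
  have hane : a ≠ 0 := by rw [ha]; simpa using hc₀ne
  have hac : a * algebraMap K F c₀ = 1 := by
    rw [ha, ← map_mul, inv_mul_cancel₀ hc₀ne, map_one]
  have horda : ∀ v : Place K F, v.ord (-(a * e2)) = v.ord e2 := by
    intro v
    rw [Fermat.Agent.H23.ord_neg, Place.ord_mul _ hane e2ne, ha, Fermat.Agent.H23.ord_algebraMap,
      zero_add]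
  set e : F := 1 + -(a * e2) with he
  -- `e` vanishes at `Q`
  have eQ : e = 0 ∨ 1 ≤ Q.ord e := by
    have hee : e = -(a * (e2 - algebraMap K F c₀)) := by
      rw [he, mul_sub, hac]; ring
    rcases hc₀ with h | h
    · left; rw [hee, h, sub_self, mul_zero, neg_zero]
    · right
      have hne : e2 - algebraMap K F c₀ ≠ 0 := by
        intro h0
        rw [h0, Place.ord_zero] at h
        exact lt_irrefl _ h
      rw [hee, Fermat.Agent.H23.ord_neg, Place.ord_mul _ hane hne, ha,
        Fermat.Agent.H23.ord_algebraMap, zero_add]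
      omega
  have ereg : ∀ v, v ≠ Qinf → e = 0 ∨ 0 ≤ v.ord e := by
    intro v hv
    by_cases he0 : e = 0
    · exact Or.inl he0
    · right
      refine Fermat.Agent.H23.ord_add_ge v he0 0 (Or.inr (by rw [Place.ord_one])) (Or.inr ?_)
      rw [horda]
      by_cases hvQ : v = Q
      · rw [hvQ, e2Q']
      · exact e2reg v hv hvQ
  have einf : e = 0 ∨ -(n : ℤ) ≤ Qinf.ord e := by
    by_cases he0 : e = 0
    · exact Or.inl he0
    · right
      refine Fermat.Agent.H23.ord_add_ge Qinf he0 _ (Or.inr (by rw [Place.ord_one]; omega))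
        (Or.inr ?_)
      rw [horda, e2inf]
  -- `h`: exact at `Q` and `Qinf`, zeros at the nodes
  obtain ⟨h, hne, hinf', hQ', hreg, hnodes, -⟩ :=
    gsn_exists pkg hc Qinf Q hQ nodes hinf hQn n 1 (by push_cast; omega) ∅
  have hQ1 : Q.ord h = 1 := by simpa using hQ'
  -- the constants to avoid
  have hBfin : ({t : K | e + algebraMap K F t * h = 0 ∨ 1 < Q.ord (e + algebraMap K F t * h)} ∪
      {t : K | e + algebraMap K F t * h = 0 ∨
        -(n : ℤ) < Qinf.ord (e + algebraMap K F t * h)}).Finite :=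
    (gsn_subsingleton_exact Q hne hQ1).finite.union
      (gsn_subsingleton_exact Qinf hne hinf').finite
  obtain ⟨t, ht⟩ := hBfin.exists_notMem
  have ht1 : ¬ (e + algebraMap K F t * h = 0 ∨ 1 < Q.ord (e + algebraMap K F t * h)) :=
    fun h' => ht (Or.inl h')
  have ht2 : ¬ (e + algebraMap K F t * h = 0 ∨
      -(n : ℤ) < Qinf.ord (e + algebraMap K F t * h)) :=
    fun h' => ht (Or.inr h')
  push Not at ht1 ht2
  obtain ⟨h1ne, h1Q⟩ := ht1
  obtain ⟨-, h1inf⟩ := ht2
  have hth : ∀ v : Place K F, ∀ k : ℤ, k ≤ v.ord h →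
      algebraMap K F t * h = 0 ∨ k ≤ v.ord (algebraMap K F t * h) := by
    intro v k hk
    rcases gsn_ord_const_mul v t hne with h' | h'
    · exact Or.inl h'
    · right; rw [h']; exact hk
  have h1Q' : Q.ord (e + algebraMap K F t * h) = 1 := by
    have := Fermat.Agent.H23.ord_add_ge Q h1ne 1 eQ (hth Q 1 (by rw [hQ1]))
    omega
  have h1inf' : Qinf.ord (e + algebraMap K F t * h) = -(n : ℤ) := by
    have := Fermat.Agent.H23.ord_add_ge Qinf h1ne (-(n : ℤ)) einf
      (hth Qinf _ (by rw [hinf']))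
    omega
  refine ⟨e + algebraMap K F t * h, h1ne, h1inf', h1Q', ?_, ?_⟩
  · intro v hv hvQ
    exact Fermat.Agent.H23.ord_add_ge v h1ne 0 (ereg v hv) (hth v 0 (hreg v hv hvQ))
  · intro v hv
    have hsub : e + algebraMap K F t * h - 1 = -(a * e2) + algebraMap K F t * h := by
      rw [he]; ring
    have hne1 : e + algebraMap K F t * h - 1 ≠ 0 := by
      intro h0
      have h1 : e + algebraMap K F t * h = 1 := by linear_combination h0
      rw [h1, Place.ord_one] at h1Q'
      omega
    rw [hsub] at hne1 ⊢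
    refine Fermat.Agent.H23.ord_add_ge v hne1 1 (Or.inr ?_) (hth v 1 (hnodes v hv))
    rw [horda]
    exact e2nodes v hv

end RR

/-- **Generic sections with value `1` at the nodes, prescribed simple zero at `Q`.** -/
theorem gsn_main [IsAlgClosed K] (p : ℕ) [Fact p.Prime] [CharP K p]
    (x : F) [FiniteDimensional K⟮x⟯ F] [Algebra.IsSeparable K⟮x⟯ F]
    {g : ℕ} (pkg : RiemannPackage K F g)
    (Qinf Q : Place K F) (hQ : Q ≠ Qinf) (nodes bad : Finset (Place K F))
    (hinf : Qinf ∉ nodes) (hQn : Q ∉ nodes) :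
    ∃ n₀ : ℕ, ∀ n : ℕ, n₀ ≤ n →
      ∃ f : F, f ≠ 0 ∧ Qinf.ord f = -(n : ℤ) ∧ Q.ord f = 1 ∧
        (∀ v, v ≠ Qinf → 0 ≤ v.ord f ∧ v.ord f ≤ 1) ∧
        (∀ v ∈ nodes, 1 ≤ v.ord (f - 1)) ∧
        ∀ v ∈ bad, v ≠ Q → v ≠ Qinf → v.ord f = 0 := by
  classical
  have hH : HurwitzStatement := Fermat.Agent.H56.RH.hurwitz
  obtain ⟨c, hc⟩ := pkg.eq_of_large
  refine ⟨(c + 3 + (nodes.card : ℤ)).toNat, fun n hn => ?_⟩
  have hnc : c + 3 + (nodes.card : ℤ) ≤ (n : ℤ) := by
    have := Int.self_le_toNat (c + 3 + (nodes.card : ℤ))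
    omega
  -- `h₁` with a simple zero at `Q` and value `1` at the nodes
  obtain ⟨h1, h1ne, h1inf, h1Q, h1reg', h1nodes⟩ :=
    gsn_exists_h1 pkg hc Qinf Q hQ nodes hinf hQn n (by omega)
  have h1reg : ∀ v, v ≠ Q → v ≠ Qinf → 0 ≤ v.ord h1 := fun v hv hv' => h1reg' v hv' hv
  have h1node0 : ∀ v ∈ nodes, v.ord h1 = 0 := by
    intro v hv
    have h := h1nodes v hv
    have hne : h1 - 1 ≠ 0 := by
      intro h0
      rw [h0, Place.ord_zero] at h
      omega
    have := Fermat.Agent.H23.ord_add_eq_of_lt v (one_ne_zero (α := F)) hne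
      (by rw [Place.ord_one]; omega)
    rw [add_sub_cancel, Place.ord_one] at this
    exact this
  obtain ⟨E, hE, -⟩ := pkg.principal.exists_divisor h1 h1ne
  -- `h₀` with a double zero at `Q`, zeros at the nodes, not vanishing at the other zeros of `h₁`
  obtain ⟨h0, h0ne, h0inf, h0Q', h0reg', h0nodes, h0ex⟩ :=
    gsn_exists pkg hc Qinf Q hQ nodes hinf hQn n 2 (by push_cast; omega) E.support
  have h0Q : Q.ord h0 = 2 := by simpa using h0Q'
  have h0reg : ∀ v, v ≠ Q → v ≠ Qinf → 0 ≤ v.ord h0 := fun v hv hv' => h0reg' v hv' hv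
  have h0Z : ∀ v, v ≠ Q → v ≠ Qinf → v.ord h1 ≠ 0 → v.ord h0 = 0 := by
    intro v hv hv' hne
    have hmem : v ∈ E.support := by
      rw [Finsupp.mem_support_iff, hE]
      exact hne
    exact h0ex v hmem hv' hv (fun hvn => hne (h1node0 v hvn))
  -- the separating element `u = h₀ / h₁`
  set u : F := h0 / h1 with hu
  have hordu : ∀ v : Place K F, v.ord u = v.ord h0 - v.ord h1 := by
    intro v
    rw [hu, div_eq_mul_inv, Place.ord_mul _ h0ne (inv_ne_zero h1ne), Place.ord_inv]
    ring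
  have huQ : Q.ord u = 1 := by
    rw [hordu, h0Q, h1Q]; norm_num
  have hune : u ≠ 0 := div_ne_zero h0ne h1ne
  have hutr : Transcendental K u := by
    intro halg
    obtain ⟨c₀, hc₀⟩ := Fermat.Agent.H16.ffb_exists_algebraMap_eq_of_isAlgebraic halg
    have := Fermat.Agent.H23.ord_algebraMap Q c₀
    rw [hc₀, huQ] at this
    exact one_ne_zero this
  haveI hfin : FiniteDimensional K⟮u⟯ F :=
    Fermat.Agent.H16.ffb_finiteDimensional_of_transcendental x u hutr
  have hnotpow : ∀ w : F, w ^ p ≠ u := by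
    intro w hw
    have h3 := congrArg Q.ord hw
    rw [← zpow_natCast, Place.ord_zpow, huQ] at h3
    have hp2 : 2 ≤ p := (Fact.out : p.Prime).two_le
    have hdvd : (p : ℤ) ∣ 1 := ⟨_, h3.symm⟩
    have := Int.eq_one_of_dvd_one (by positivity) hdvd
    omega
  haveI hsep : Algebra.IsSeparable K⟮u⟯ F :=
    Fermat.Agent.H16.ffb_isSeparable_of_not_pow p x u hnotpow
  have hram : {v : Place K F | 1 < ramIdx u v}.Finite := (hH K F u hutr hfin hsep g pkg).1
  set R : Finset (Place K F) := insert Qinf (hram.toFinset ∪ bad) with hR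
  -- the constants to avoid
  have hBfin : (({0} : Set K) ∪ ⋃ v ∈ (R : Set (Place K F)),
      {c : K | 0 < v.ord (1 - algebraMap K F c * u)}).Finite := by
    refine (Set.finite_singleton 0).union ?_
    exact Set.Finite.biUnion (Finset.finite_toSet R)
      (fun v _ => (gs_subsingleton_const v u).finite)
  obtain ⟨c₁, hcB⟩ := hBfin.exists_notMem
  have hc0 : c₁ ≠ 0 := fun h => hcB (Or.inl (by simp [h]))
  have hcC : ∀ v ∈ R, ¬ 0 < v.ord (1 - algebraMap K F c₁ * u) := by
    intro v hv hpos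
    exact hcB (Or.inr (Set.mem_biUnion (Finset.mem_coe.mpr hv) hpos))
  set w : F := 1 - algebraMap K F c₁ * u with hw
  have hwne : w ≠ 0 := by
    intro h0
    have h1' : algebraMap K F c₁ * u = 1 := by
      rw [hw] at h0
      linear_combination -h0
    have h3 := congrArg Q.ord h1'
    rw [Place.ord_mul _ (by simpa using hc0) hune, Fermat.Agent.H23.ord_algebraMap, huQ,
      Place.ord_one] at h3
    omega
  have hordf : ∀ v : Place K F, v.ord (h1 * w) = v.ord h1 + v.ord w :=
    fun v => Place.ord_mul v h1ne hwne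
  have key : ∀ v, v ≠ Q → v ≠ Qinf →
      0 ≤ v.ord (h1 * w) ∧ v.ord (h1 * w) ≤ 1 ∧ (v ∈ bad → v.ord (h1 * w) = 0) := by
    intro v hvQ hvinf
    have a1 := h1reg v hvQ hvinf
    have a0 := h0reg v hvQ hvinf
    obtain ⟨b1, -, b3⟩ := gs_ord_one_sub v (u := u) hc0 hwne
    rcases eq_or_lt_of_le a1 with h | h
    · have hu' : v.ord u = v.ord h0 := by rw [hordu, ← h, sub_zero]
      have hw0 : 0 ≤ v.ord w := b3 (by omega)
      have hf : v.ord (h1 * w) = v.ord w := by rw [hordf, ← h, zero_add]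
      rw [hf]
      refine ⟨hw0, ?_, ?_⟩
      · by_contra hgt
        have h2 : 2 ≤ v.ord w := by omega
        have hr := gs_ramIdx_of_ord_ge_two v hc0 h2
        have hvR : v ∈ R := by
          rw [hR]
          exact Finset.mem_insert_of_mem (Finset.mem_union_left _ (hram.mem_toFinset.mpr hr))
        exact hcC v hvR (by omega)
      · intro hvb
        have hvR : v ∈ R := by
          rw [hR]
          exact Finset.mem_insert_of_mem (Finset.mem_union_right _ hvb)
        have := hcC v hvR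
        omega
    · have h0' := h0Z v hvQ hvinf (by omega)
      have hu' : v.ord u = -v.ord h1 := by rw [hordu, h0', zero_sub]
      have hw' : v.ord w = v.ord u := b1 (by omega)
      have hf : v.ord (h1 * w) = 0 := by rw [hordf, hw', hu']; omega
      rw [hf]
      exact ⟨le_rfl, by norm_num, fun _ => rfl⟩
  have hfQ : Q.ord (h1 * w) = 1 := by
    obtain ⟨-, b2, -⟩ := gs_ord_one_sub Q (u := u) hc0 hwne
    have hw0 : Q.ord w = 0 := b2 (by omega)
    rw [hordf, h1Q, hw0]
    norm_num
  refine ⟨h1 * w, mul_ne_zero h1ne hwne, ?_, hfQ, ?_, ?_, ?_⟩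
  · obtain ⟨-, -, b3⟩ := gs_ord_one_sub Qinf (u := u) hc0 hwne
    have hu' : Qinf.ord u = 0 := by rw [hordu, h0inf, h1inf]; omega
    have hw0 : 0 ≤ Qinf.ord w := b3 (by omega)
    have := hcC Qinf (by rw [hR]; exact Finset.mem_insert_self _ _)
    rw [hordf, h1inf]
    omega
  · intro v hv
    by_cases hvQ : v = Q
    · rw [hvQ, hfQ]
      norm_num
    · exact ⟨(key v hvQ hv).1, (key v hvQ hv).2.1⟩
  · intro v hv
    have hsub : h1 * w - 1 = (h1 - 1) + -(algebraMap K F c₁ * h0) := by
      rw [hw, hu]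
      field_simp
      ring
    have hne1 : h1 * w - 1 ≠ 0 := by
      intro h0'
      have h1' : h1 * w = 1 := by linear_combination h0'
      rw [h1', Place.ord_one] at hfQ
      omega
    rw [hsub] at hne1 ⊢
    refine Fermat.Agent.H23.ord_add_ge v hne1 1 (Or.inr (h1nodes v hv)) (Or.inr ?_)
    rw [Fermat.Agent.H23.ord_neg, Place.ord_mul _ (by simpa using hc0) h0ne,
      Fermat.Agent.H23.ord_algebraMap, zero_add]
    exact h0nodes v hv
  · intro v hvb hvQ hvinf
    exact (key v hvQ hvinf).2.2 hvb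

/-- **[N-GS]** generic sections with value `1` at finitely many given places. -/
theorem genericSectionN : Fermat.Agent.H94.ORD.GenericSectionN := by
  classical
  intro K F _ _ _ _ p _ _ g pkg hsep Qinf nodes bad hinf
  obtain ⟨x, hx1, hx2⟩ := hsep
  haveI := hx1
  haveI := hx2
  refine ⟨?_, ?_⟩
  · -- an auxiliary place outside `bad`, `nodes`, `Qinf`
    haveI := pkg.infinite_places
    obtain ⟨Q', hQ'⟩ := Infinite.exists_notMem_finset (insert Qinf (nodes ∪ bad))
    have hQ1 : Q' ≠ Qinf := fun h => hQ' (by rw [h]; exact Finset.mem_insert_self _ _)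
    have hQ2 : Q' ∉ nodes := fun h =>
      hQ' (Finset.mem_insert_of_mem (Finset.mem_union_left _ h))
    have hQ3 : Q' ∉ bad := fun h =>
      hQ' (Finset.mem_insert_of_mem (Finset.mem_union_right _ h))
    obtain ⟨n₀, hn₀⟩ := gsn_main p x pkg Qinf Q' hQ1 nodes bad hinf hQ2
    refine ⟨n₀, fun n hn => ?_⟩
    obtain ⟨f, hf, h1, -, h3, h4, h5⟩ := hn₀ n hn
    exact ⟨f, hf, h1, h3, h4, fun v hv hvinf =>
      h5 v hv (fun h => hQ3 (h ▸ hv)) hvinf⟩
  · intro Q hQ hQn
    exact gsn_main p x pkg Qinf Q hQ nodes bad hinf hQn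

end Fermat.Agent.H39.ORD
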