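/-
helper39 (P-ORD, block B1, row 1159 B1-D-SURJ, second seat): the GENERIC CORE of [SURJ].

`K` algebraically closed of characteristic `0`, `A` a valuation subring of `K`, `F / K` a function
field of one variable, `y ∈ F` transcendental with `F / K(y)` finite, `A[y] = scPoly A y ⊆ F`,
`B = scChart A y` the integral closure of `A[y]` in `F`.

`sc_exists_place` : every PRIME ideal `𝔫` of `B` containing `𝔪_A` and `y - a` (`a ∈ A`) is the
centre of a place `P` of `F / K` with `y(P) = a` : for `f ∈ B`, `f(P) ∈ 𝔪_A → f ∈ 𝔫`.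

Proof: `A[X]` is integrally closed (Mathlib), so `A[y] ⊆ B` has going-down (Mathlib); a prime
`𝔭 ⊆ 𝔫` over `(y - a)` has `B / 𝔭 = A` (`K` algebraically closed, `A` integrally closed); a
valuation ring dominating `B_𝔭` (Chevalley) contains `K` and is the valuation ring of a place
(`Fermat.Agent.H39.valuationRingDVR`).
-/
import Fermat.Agent.H39.ESBValuationRing
import Fermat.Agent.H23.PlaceBasic

set_option autoImplicit false
set_option linter.style.haveILetI false
set_option linter.unusedSectionVars false

noncomputable section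

open AlgebraicCurve IntermediateField Polynomial

namespace Fermat.Agent.H39.ORD

variable {K F : Type} [Field K] [Field F] [Algebra K F]

/-- the ring `A[y] ⊆ F` -/
def scPoly (A : ValuationSubring K) (y : F) : Subring F :=
  Subring.closure ((fun c : K => algebraMap K F c) '' (A : Set K) ∪ {y})

/-- the chart `B(y)` : the integral closure of `A[y]` in `F` -/
def scChart (A : ValuationSubring K) (y : F) : Subring F :=
  letI : Algebra ↥(scPoly A y) F := (scPoly A y).subtype.toAlgebra
  (integralClosure ↥(scPoly A y) F).toSubring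

/-- `A[X] → F`, `X ↦ y` -/
def scHom (A : ValuationSubring K) (y : F) : Polynomial ↥A →+* F :=
  Polynomial.eval₂RingHom ((algebraMap K F).comp A.subtype) y

theorem scHom_C (A : ValuationSubring K) (y : F) (c : ↥A) :
    scHom A y (C c) = algebraMap K F (c : K) := by
  simp [scHom]

theorem scHom_X (A : ValuationSubring K) (y : F) : scHom A y X = y := by
  simp [scHom]

theorem scHom_injective (A : ValuationSubring K) {y : F} (hy : Transcendental K y) :
    Function.Injective (scHom A y) := by
  rw [injective_iff_map_eq_zero]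
  intro g hg
  have h1 : aeval y (g.map A.subtype) = 0 := by
    rw [aeval_def, eval₂_map]
    exact hg
  have h2 : g.map A.subtype = 0 := by
    by_contra hne
    exact hy ⟨_, hne, h1⟩
  exact (Polynomial.map_eq_zero_iff (Subtype.val_injective)).mp h2

theorem scHom_range (A : ValuationSubring K) (y : F) :
    (scHom A y).range = scPoly A y := by
  apply le_antisymm
  · rintro _ ⟨g, rfl⟩
    induction g using Polynomial.induction_on with
    | C c =>
      rw [scHom_C]
      exact Subring.subset_closure (Or.inl ⟨(c : K), c.2, rfl⟩)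
    | add p q hp hq =>
      rw [map_add]
      exact add_mem hp hq
    | monomial n c h =>
      rw [pow_succ, ← mul_assoc, map_mul, scHom_X]
      exact mul_mem h (Subring.subset_closure (Or.inr rfl))
  · rw [scPoly, Subring.closure_le]
    rintro f (⟨c, hc, rfl⟩ | hf)
    · exact ⟨C ⟨c, hc⟩, scHom_C A y ⟨c, hc⟩⟩
    · rw [Set.mem_singleton_iff] at hf
      rw [hf]
      exact ⟨X, scHom_X A y⟩

/-- A root in a domain of a monic polynomial over `A` comes from `A` (`K` algebraically closed,
`A` integrally closed). -/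
theorem sc_root_mem [IsAlgClosed K] (A : ValuationSubring K) {D : Type*} [CommRing D]
    [IsDomain D] (ψ : ↥A →+* D) (x : D) :
    ∀ (n : ℕ) (Q : Polynomial ↥A), Q.natDegree = n → Q.Monic → eval₂ ψ x Q = 0 →
      ∃ c : ↥A, x = ψ c := by
  intro n
  induction n with
  | zero =>
    intro Q hdeg hQ h0
    have h1 : Q = 1 := by
      rw [Polynomial.eq_C_of_natDegree_eq_zero hdeg]
      have := hQ.leadingCoeff
      rw [Polynomial.leadingCoeff, hdeg] at this
      rw [this, map_one]
    rw [h1, eval₂_one] at h0
    exact absurd h0 one_ne_zero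
  | succ n ih =>
    intro Q hdeg hQ h0
    -- a root of `Q` in `K`
    have hdegK : (Q.map A.subtype).degree ≠ 0 := by
      rw [Polynomial.degree_map_eq_of_injective Subtype.val_injective,
        Polynomial.degree_eq_natDegree hQ.ne_zero, hdeg]
      exact_mod_cast Nat.succ_ne_zero n
    obtain ⟨c, hc⟩ := IsAlgClosed.exists_root (Q.map A.subtype) hdegK
    have hcint : IsIntegral ↥A c := by
      refine ⟨Q, hQ, ?_⟩
      rw [Polynomial.IsRoot.def, Polynomial.eval_map] at hc
      exact hc
    obtain ⟨c', hc'⟩ := IsIntegrallyClosed.isIntegral_iff.mp hcint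
    have hroot : Q.IsRoot c' := by
      rw [Polynomial.IsRoot.def]
      apply Subtype.val_injective
      have : (Q.map A.subtype).eval (A.subtype c') = A.subtype (Q.eval c') :=
        Polynomial.eval_map_apply _ _
      have hcc : A.subtype c' = c := hc'
      rw [hcc, hc] at this
      rw [ZeroMemClass.coe_zero]
      exact this.symm
    have hdiv : (X - C c') * (Q /ₘ (X - C c')) = Q :=
      Polynomial.mul_divByMonic_eq_iff_isRoot.mpr hroot
    set Q' := Q /ₘ (X - C c') with hQ'
    have hQ'm : Q'.Monic := by
      have h1 : ((X - C c') * Q').Monic := by rw [hdiv]; exact hQ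
      exact (Polynomial.Monic.of_mul_monic_left (Polynomial.monic_X_sub_C c') h1)
    have hQ'deg : Q'.natDegree = n := by
      have h1 := congrArg Polynomial.natDegree hdiv
      rw [Polynomial.Monic.natDegree_mul (Polynomial.monic_X_sub_C c') hQ'm,
        Polynomial.natDegree_X_sub_C, hdeg] at h1
      omega
    have h2 : (x - ψ c') * eval₂ ψ x Q' = 0 := by
      rw [← h0, ← hdiv, eval₂_mul, eval₂_sub, eval₂_X, eval₂_C]
    rcases mul_eq_zero.mp h2 with h | h
    · exact ⟨c', sub_eq_zero.mp h⟩
    · exact ih Q' hQ'deg hQ'm h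

theorem scPoly_le_scChart (A : ValuationSubring K) (y : F) : scPoly A y ≤ scChart A y := by
  intro g hg
  letI : Algebra ↥(scPoly A y) F := (scPoly A y).subtype.toAlgebra
  show IsIntegral ↥(scPoly A y) g
  exact isIntegral_algebraMap (x := (⟨g, hg⟩ : ↥(scPoly A y)))

theorem scHom_mem_scChart (A : ValuationSubring K) (y : F) (g : Polynomial ↥A) :
    scHom A y g ∈ scChart A y :=
  scPoly_le_scChart A y (by rw [← scHom_range]; exact ⟨g, rfl⟩)

/-- `A[X] → B(y)` -/
def scHomT (A : ValuationSubring K) (y : F) : Polynomial ↥A →+* ↥(scChart A y) :=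
  (scHom A y).codRestrict (scChart A y) (scHom_mem_scChart A y)

theorem coe_scHomT (A : ValuationSubring K) (y : F) (g : Polynomial ↥A) :
    ((scHomT A y g : ↥(scChart A y)) : F) = scHom A y g := rfl

theorem scHomT_injective (A : ValuationSubring K) {y : F} (hy : Transcendental K y) :
    Function.Injective (scHomT A y) := by
  intro g h hgh
  apply scHom_injective A hy
  have := congrArg (fun t : ↥(scChart A y) => (t : F)) hgh
  simpa [coe_scHomT] using this

/-- every element of the chart is integral over `A[X]` -/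
theorem scHomT_isIntegralElem (A : ValuationSubring K) (y : F) (t : ↥(scChart A y)) :
    (scHomT A y).IsIntegralElem t := by
  letI : Algebra ↥(scPoly A y) F := (scPoly A y).subtype.toAlgebra
  have ht : IsIntegral ↥(scPoly A y) (t : F) := t.2
  obtain ⟨Pol, hmonic, hPol⟩ := ht
  -- the surjection `A[X] → A[y]`
  let φR : Polynomial ↥A →+* ↥(scPoly A y) :=
    (scHom A y).codRestrict (scPoly A y) (fun g => by rw [← scHom_range]; exact ⟨g, rfl⟩)
  have hφR : Function.Surjective φR := by
    rintro ⟨g, hg⟩
    rw [← scHom_range] at hg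
    obtain ⟨G, rfl⟩ := hg
    exact ⟨G, rfl⟩
  have hlift : Pol ∈ Polynomial.lifts φR := by
    rw [Polynomial.lifts_iff_coeff_lifts]
    intro n
    exact hφR _
  obtain ⟨PolA, hmap, -, hPolAm⟩ := Polynomial.lifts_and_degree_eq_and_monic hlift hmonic
  refine ⟨PolA, hPolAm, ?_⟩
  apply Subtype.val_injective
  have h1 : ((eval₂ (scHomT A y) t PolA : ↥(scChart A y)) : F)
      = eval₂ ((scChart A y).subtype.comp (scHomT A y)) ((scChart A y).subtype t) PolA :=
    Polynomial.hom_eval₂ PolA (scHomT A y) (scChart A y).subtype t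
  have h2 : (scChart A y).subtype.comp (scHomT A y) = (scPoly A y).subtype.comp φR := rfl
  rw [h1, h2, ← Polynomial.eval₂_map, hmap]
  exact hPol

section Core

variable [IsAlgClosed K] [CharZero K]

/-- **The generic core of [SURJ]** : a prime ideal of the chart `B(y)` containing `𝔪_A` and
`y - a` is the centre of a place `P` of `F / K` with `y(P) = a`. -/
theorem sc_exists_place (A : ValuationSubring K) {y : F}
    (hy : Transcendental K y) (hfin : FiniteDimensional K⟮y⟯ F) {a : K} (ha : a ∈ A)
    (n : Ideal ↥(scChart A y)) [hn : n.IsPrime]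
    (hm : ∀ (c : K), c ∈ A.nonunits → ∀ h : algebraMap K F c ∈ scChart A y,
      (⟨_, h⟩ : ↥(scChart A y)) ∈ n)
    (hya : ∀ h : y - algebraMap K F a ∈ scChart A y, (⟨_, h⟩ : ↥(scChart A y)) ∈ n) :
    ∃ P : Place K F, 1 ≤ P.ord (y - algebraMap K F a) ∧
      ∀ f : ↥(scChart A y), ∀ c ∈ A.nonunits,
        ((f : F) = algebraMap K F c ∨ 1 ≤ P.ord ((f : F) - algebraMap K F c)) → f ∈ n := by
  classical
  set T := ↥(scChart A y) with hT
  letI algT : Algebra (Polynomial ↥A) T := (scHomT A y).toAlgebra
  have halg : ∀ g : Polynomial ↥A, algebraMap (Polynomial ↥A) T g = scHomT A y g := fun _ => rfl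
  haveI : FaithfulSMul (Polynomial ↥A) T :=
    (faithfulSMul_iff_algebraMap_injective _ _).mpr (scHomT_injective A hy)
  haveI : Algebra.IsIntegral (Polynomial ↥A) T := ⟨fun t => scHomT_isIntegralElem A y t⟩
  -- the two primes of `A[X]`
  let a' : ↥A := ⟨a, ha⟩
  let ev : Polynomial ↥A →+* ↥A := Polynomial.evalRingHom a'
  let p₀ : Ideal (Polynomial ↥A) := RingHom.ker ev
  haveI hp₀ : p₀.IsPrime := RingHom.ker_isPrime ev
  have hXa : algebraMap (Polynomial ↥A) T (X - C a') ∈ n := by
    have h1 : ((algebraMap (Polynomial ↥A) T (X - C a') : T) : F) = y - algebraMap K F a := by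
      rw [halg, coe_scHomT, map_sub, scHom_X, scHom_C]
    have h2 : y - algebraMap K F a ∈ scChart A y := h1 ▸ (algebraMap (Polynomial ↥A) T (X - C a')).2
    have h3 := hya h2
    have h4 : (⟨y - algebraMap K F a, h2⟩ : T) = algebraMap (Polynomial ↥A) T (X - C a') :=
      Subtype.ext h1.symm
    rwa [h4] at h3
  have hle : p₀ ≤ n.under (Polynomial ↥A) := by
    intro g hg
    have hroot : g.IsRoot a' := hg
    obtain ⟨h, rfl⟩ := Polynomial.dvd_iff_isRoot.mpr hroot
    rw [Ideal.mem_comap, map_mul]
    exact n.mul_mem_right _ hXa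
  obtain ⟨p, hpn, hpprime, hpover⟩ :=
    Ideal.exists_ideal_le_liesOver_of_le (p := p₀) (q := n.under (Polynomial ↥A)) n hle
  haveI := hpprime
  have hunder : ∀ g : Polynomial ↥A, algebraMap (Polynomial ↥A) T g ∈ p ↔ ev g = 0 := by
    intro g
    have := hpover.over
    rw [← Ideal.mem_comap]
    change g ∈ p.under (Polynomial ↥A) ↔ _
    rw [← this]
    exact RingHom.mem_ker
  -- `T / p = A`
  have hquot : ∀ t : T, ∃ c : ↥A, t - algebraMap (Polynomial ↥A) T (C c) ∈ p := by
    intro t
    obtain ⟨PolT, hPolTm, hPolT⟩ := scHomT_isIntegralElem A y t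
    let ψ : ↥A →+* T ⧸ p := (Ideal.Quotient.mk p).comp ((algebraMap (Polynomial ↥A) T).comp C)
    have hfac : (Ideal.Quotient.mk p).comp (algebraMap (Polynomial ↥A) T) = ψ.comp ev := by
      apply Polynomial.ringHom_ext
      · intro c
        simp [ψ, ev]
      · have h1 : ev (X - C a') = 0 := by simp [ev]
        have h2 := (hunder (X - C a')).mpr h1
        rw [map_sub] at h2
        have h3 := (Ideal.Quotient.eq (I := p)).mpr h2
        simpa [ψ, ev] using h3
    have h0 : eval₂ ψ (Ideal.Quotient.mk p t) (PolT.map ev) = 0 := by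
      rw [Polynomial.eval₂_map, ← hfac, ← Polynomial.hom_eval₂]
      have : eval₂ (algebraMap (Polynomial ↥A) T) t PolT = 0 := hPolT
      rw [this, map_zero]
    obtain ⟨c, hc⟩ := sc_root_mem A ψ (Ideal.Quotient.mk p t) _ (PolT.map ev) rfl
      (hPolTm.map ev) h0
    refine ⟨c, ?_⟩
    rw [← Ideal.Quotient.eq]
    exact hc
  -- Chevalley
  obtain ⟨O, hO⟩ := (LocalSubring.ofPrime (scChart A y) p).exists_le_valuationSubring
  obtain ⟨hOle, hOloc⟩ := LocalSubring.le_def.mp hO
  have hTO : ∀ t : T, (t : F) ∈ O := fun t =>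
    hOle (LocalSubring.le_ofPrime (scChart A y) p t.2)
  have hpO : ∀ t : T, t ∈ p → ∀ h : (t : F) ∈ O, ¬ IsUnit (⟨(t : F), h⟩ : O) := by
    intro t ht h hu
    have h1 : IsUnit (Subring.inclusion hOle
        (algebraMap T (LocalSubring.ofPrime (scChart A y) p).toSubring t)) := by
      have : Subring.inclusion hOle
          (algebraMap T (LocalSubring.ofPrime (scChart A y) p).toSubring t)
          = (⟨(t : F), h⟩ : O) := rfl
      rw [this]; exact hu
    have h2 := hOloc.map_nonunit _ h1
    have h3 := (IsLocalization.AtPrime.isUnit_to_map_iff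
      (LocalSubring.ofPrime (scChart A y) p).toSubring p t).mp h2
    exact h3 ht
  have hnpO : ∀ t : T, t ∉ p → ((t : F))⁻¹ ∈ O := by
    intro t ht
    have h2 := (IsLocalization.AtPrime.isUnit_to_map_iff
      (LocalSubring.ofPrime (scChart A y) p).toSubring p t).mpr ht
    have h3 : IsUnit (Subring.inclusion hOle
        (algebraMap T (LocalSubring.ofPrime (scChart A y) p).toSubring t)) := h2.map _
    obtain ⟨u, hu⟩ := h3.exists_right_inv
    have h4 : (t : F) * (u : F) = 1 := congrArg Subtype.val hu
    have h5 : ((t : F))⁻¹ = (u : F) := (eq_inv_of_mul_eq_one_right h4).symm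
    rw [h5]
    exact u.2
  -- constants
  have hcst : ∀ c : ↥A, ((algebraMap (Polynomial ↥A) T (C c) : T) : F) = algebraMap K F (c : K) := by
    intro c
    rw [halg, coe_scHomT, scHom_C]
  have hKO : ∀ c : K, algebraMap K F c ∈ O := by
    intro c
    rcases A.mem_or_inv_mem c with hc | hc
    · have := hTO (algebraMap (Polynomial ↥A) T (C ⟨c, hc⟩))
      rwa [hcst] at this
    · by_cases hc0 : c = 0
      · rw [hc0, map_zero]; exact O.zero_mem
      have hnp : algebraMap (Polynomial ↥A) T (C ⟨c⁻¹, hc⟩) ∉ p := by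
        rw [hunder]
        intro h0
        have h1 : (⟨c⁻¹, hc⟩ : ↥A) = 0 := by simpa [ev] using h0
        have h2 := congrArg Subtype.val h1
        simp at h2
        exact hc0 h2
      have := hnpO _ hnp
      rw [hcst] at this
      simpa using this
  have hyaT : algebraMap (Polynomial ↥A) T (X - C a') ∈ p := (hunder _).mpr (by simp [ev])
  have hyaF : ((algebraMap (Polynomial ↥A) T (X - C a') : T) : F) = y - algebraMap K F a := by
    rw [halg, coe_scHomT, map_sub, scHom_X, scHom_C]
  have hya0 : y - algebraMap K F a ≠ 0 := by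
    intro h0
    apply hy
    have : y = algebraMap K F a := sub_eq_zero.mp h0
    rw [this]
    exact isAlgebraic_algebraMap a
  have hOtop : O ≠ ⊤ := by
    intro htop
    have hmem : (y - algebraMap K F a) ∈ O := by rw [← hyaF]; exact hTO _
    have hinv : (y - algebraMap K F a)⁻¹ ∈ O := by rw [htop]; exact ValuationSubring.mem_top _
    have hu : IsUnit (⟨y - algebraMap K F a, hmem⟩ : O) := by
      refine IsUnit.of_mul_eq_one (⟨(y - algebraMap K F a)⁻¹, hinv⟩ : O) ?_
      apply Subtype.ext
      show (y - algebraMap K F a) * (y - algebraMap K F a)⁻¹ = 1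
      exact mul_inv_cancel₀ hya0
    have h1 := hpO _ hyaT (by rw [hyaF]; exact hmem)
    apply h1
    convert hu using 2
  obtain ⟨w, hw⟩ := Fermat.Agent.H39.valuationRingDVR K F y hy hfin O hKO hOtop
  subst hw
  -- elements of `p` have positive order
  have hpos : ∀ t : T, t ∈ p → (t : F) = 0 ∨ 0 < w.ord (t : F) := by
    intro t ht
    have h1 := hpO t ht (hTO t)
    have h2 : (⟨(t : F), hTO t⟩ : w.toValuationSubring) ∈
        IsLocalRing.maximalIdeal w.toValuationSubring := by
      rw [IsLocalRing.mem_maximalIdeal, mem_nonunits_iff]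
      exact h1
    exact (Fermat.Agent.H23.mem_maximalIdeal_iff_ord w _).mp h2
  refine ⟨w, ?_, ?_⟩
  · have := hpos _ hyaT
    rw [hyaF] at this
    rcases this with h | h
    · exact absurd h hya0
    · omega
  · intro f c hc hval
    obtain ⟨c₁, hc₁⟩ := hquot f
    have h1 := hpos _ hc₁
    have h1' : ((f - algebraMap (Polynomial ↥A) T (C c₁) : T) : F)
        = (f : F) - algebraMap K F (c₁ : K) := by
      show (f : F) - ((algebraMap (Polynomial ↥A) T (C c₁) : T) : F) = _
      rw [hcst]
    rw [h1'] at h1
    -- the two values agree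
    have hcc : (c₁ : K) = c := by
      by_contra hne
      have hd : algebraMap K F ((c₁ : K) - c) ≠ 0 := by
        rw [Ne, map_eq_zero, sub_eq_zero]; exact hne
      have hsum : ((f : F) - algebraMap K F c) + -((f : F) - algebraMap K F (c₁ : K))
          = algebraMap K F ((c₁ : K) - c) := by
        rw [map_sub]; ring
      have h2 : 1 ≤ w.ord (((f : F) - algebraMap K F c) + -((f : F) - algebraMap K F (c₁ : K))) := by
        refine Fermat.Agent.H23.ord_add_ge w (by rw [hsum]; exact hd) 1 ?_ ?_
        · rcases hval with h | h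
          · left; rw [h, sub_self]
          · right; exact h
        · rcases h1 with h | h
          · left; rw [h, neg_zero]
          · right; rw [Fermat.Agent.H23.ord_neg]; omega
      rw [hsum, Fermat.Agent.H23.ord_algebraMap] at h2
      omega
    have hc₁n : algebraMap (Polynomial ↥A) T (C c₁) ∈ n := by
      have h2 : algebraMap K F c ∈ scChart A y := by
        rw [← hcc, ← hcst]; exact (algebraMap (Polynomial ↥A) T (C c₁)).2
      have h3 := hm c hc h2
      have h4 : (⟨algebraMap K F c, h2⟩ : T) = algebraMap (Polynomial ↥A) T (C c₁) := by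
        apply Subtype.ext
        rw [hcst, hcc]
      rwa [h4] at h3
    have : f = (f - algebraMap (Polynomial ↥A) T (C c₁)) + algebraMap (Polynomial ↥A) T (C c₁) := by
      ring
    rw [this]
    exact n.add_mem (hpn hc₁) hc₁n

end Core

end Fermat.Agent.H39.ORD
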