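/-
helper39 (P-ORD, block B1, row 1159 B1-D-SURJ): [SURJ] for an abstract component.

`V ⊆ F` a valuation ring with `V ∩ K = A` and a reduction map `red : V → F_c` (soft fields of
`NodalRvHyp`), `Q` a place of `F_c / k` with residue field `k`.  Then there is a place `P` of
`F / K` whose centre on its chart (`B(j)` if `j(P) ∈ A`, `B(j⁻¹)` otherwise) lies under `Q`.
-/
import Fermat.Agent.H39.ORD.SurjCore

set_option autoImplicit false
set_option linter.style.haveILetI false
set_option linter.unusedSectionVars false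

noncomputable section

open AlgebraicCurve IntermediateField Polynomial

namespace Fermat.Agent.H39.ORD

variable {K F : Type} [Field K] [Field F] [Algebra K F]

/-- a subring with the normalisation property is a valuation ring -/
def scValSub (A : ValuationSubring K) (V : Subring F)
    (hconst : ∀ c : K, c ∈ A → algebraMap K F c ∈ V)
    (hnorm : ∀ φ : F, φ ≠ 0 → ∃ (c : K) (u : F), c ≠ 0 ∧ u ∈ V ∧ u⁻¹ ∈ V ∧
      φ = algebraMap K F c * u) : ValuationSubring F :=
  { V with
    mem_or_inv_mem' := by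
      intro φ
      by_cases hφ : φ = 0
      · left; rw [hφ]; exact V.zero_mem
      obtain ⟨c, u, hc, hu, hui, rfl⟩ := hnorm φ hφ
      rcases A.mem_or_inv_mem c with h | h
      · left; exact V.mul_mem (hconst c h) hu
      · right
        rw [mul_inv, ← map_inv₀]
        exact V.mul_mem (hconst _ h) hui }

theorem mem_scValSub (A : ValuationSubring K) (V : Subring F)
    (hconst : ∀ c : K, c ∈ A → algebraMap K F c ∈ V)
    (hnorm : ∀ φ : F, φ ≠ 0 → ∃ (c : K) (u : F), c ≠ 0 ∧ u ∈ V ∧ u⁻¹ ∈ V ∧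
      φ = algebraMap K F c * u) (f : F) :
    f ∈ scValSub A V hconst hnorm ↔ f ∈ V := Iff.rfl

/-- the chart `B(y)` lies in every valuation ring containing `A` and `y` -/
theorem scChart_le_valuationSubring (A : ValuationSubring K) (y : F) (W : ValuationSubring F)
    (hA : ∀ c : K, c ∈ A → algebraMap K F c ∈ W) (hy : y ∈ W) :
    ∀ f ∈ scChart A y, f ∈ W := by
  intro f hf
  obtain ⟨PolA, hm, h0⟩ := scHomT_isIntegralElem A y ⟨f, hf⟩
  have hrange : ∀ g : Polynomial ↥A, scHom A y g ∈ W := by
    intro g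
    have h1 : scHom A y g ∈ scPoly A y := by rw [← scHom_range]; exact ⟨g, rfl⟩
    have h2 : scPoly A y ≤ W.toSubring := by
      rw [scPoly, Subring.closure_le]
      rintro x (⟨c, hc, rfl⟩ | hx)
      · exact hA c hc
      · rw [Set.mem_singleton_iff] at hx
        rw [hx]; exact hy
    exact h2 h1
  let φW : Polynomial ↥A →+* ↥W := (scHom A y).codRestrict W.toSubring hrange
  have hint : IsIntegral ↥W f := by
    refine ⟨PolA.map φW, hm.map φW, ?_⟩
    rw [Polynomial.eval₂_map]
    have h1 : (algebraMap ↥W F).comp φW = scHom A y := rfl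
    rw [h1]
    have h2 := congrArg (fun t : ↥(scChart A y) => (t : F)) h0
    simp only [ZeroMemClass.coe_zero] at h2
    rw [← h2]
    exact (Polynomial.hom_eval₂ PolA (scHomT A y) (scChart A y).subtype ⟨f, hf⟩).symm
  obtain ⟨v, hv⟩ := IsIntegrallyClosed.isIntegral_iff.mp hint
  rw [← hv]
  exact v.2

section Comp

variable [IsAlgClosed K] [CharZero K] (A : ValuationSubring K)
  {k Fc : Type} [Field k] [Field Fc] [Algebra k Fc]

/-- **[SURJ] on one chart** : if `red y ∈ O_Q` has the value `res a` at `Q`, there is a place `P`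
of `F / K` with `y(P) = a` whose centre on `B(y)` lies under `Q`. -/
theorem sc_chart_surj (res : ↥A →+* k)
    (hres : ∀ c : ↥A, (c : K) ∈ A.nonunits → res c = 0)
    (V : Subring F) (red : ↥V →+* Fc)
    (hredc : ∀ (c : ↥A) (hc : algebraMap K F (c : K) ∈ V),
      red ⟨_, hc⟩ = algebraMap k Fc (res c))
    {y : F} (hy : Transcendental K y) (hfin : FiniteDimensional K⟮y⟯ F)
    (hBV : scChart A y ≤ V)
    (Q : Place k Fc) (hyV : y ∈ V) (hyQ : red ⟨y, hyV⟩ ∈ Q.toValuationSubring)
    (a : ↥A)
    (haQ : red ⟨y, hyV⟩ - algebraMap k Fc (res a) ∈ Q.toValuationSubring.nonunits) :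
    ∃ P : Place K F, 1 ≤ P.ord (y - algebraMap K F (a : K)) ∧
      ∀ f ∈ scChart A y,
        (∃ c ∈ A.nonunits, (f = algebraMap K F c ∨ 1 ≤ P.ord (f - algebraMap K F c))) →
        ∀ h : f ∈ V, red ⟨f, h⟩ ∈ Q.toValuationSubring.nonunits := by
  classical
  set B := scChart A y with hB
  let redB : ↥B →+* Fc := red.comp (Subring.inclusion hBV)
  have hredB : ∀ (f : F) (hf : f ∈ B) (h : f ∈ V), redB ⟨f, hf⟩ = red ⟨f, h⟩ := fun _ _ _ => rfl
  let ρ : Polynomial ↥A →+* ↥Q.toValuationSubring :=
    Polynomial.eval₂RingHom ((algebraMap k ↥Q.toValuationSubring).comp res) ⟨red ⟨y, hyV⟩, hyQ⟩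
  have hρ : redB.comp (scHomT A y) = (Q.toValuationSubring.subtype).comp ρ := by
    apply Polynomial.ringHom_ext
    · intro c
      have hcB : algebraMap K F (c : K) ∈ scChart A y := by
        have := scHom_mem_scChart A y (C c)
        rwa [scHom_C] at this
      have h1 : scHomT A y (C c) = ⟨algebraMap K F (c : K), hcB⟩ :=
        Subtype.ext (scHom_C A y c)
      have h2 : (Q.toValuationSubring.subtype).comp ρ (C c) = algebraMap k Fc (res c) := by
        simp [ρ]
      rw [h2, RingHom.comp_apply, h1]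
      exact hredc c _
    · have hyB : y ∈ scChart A y := by
        have := scHom_mem_scChart A y X
        rwa [scHom_X] at this
      have h1 : scHomT A y X = ⟨y, hyB⟩ := Subtype.ext (scHom_X A y)
      have h2 : (Q.toValuationSubring.subtype).comp ρ X = red ⟨y, hyV⟩ := by
        simp [ρ]
      rw [h2, RingHom.comp_apply, h1]
      rfl
  have hmemQ : ∀ f : ↥B, redB f ∈ Q.toValuationSubring := by
    intro f
    obtain ⟨PolA, hm, h0⟩ := scHomT_isIntegralElem A y f
    have hint : IsIntegral ↥Q.toValuationSubring (redB f) := by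
      refine ⟨PolA.map ρ, hm.map ρ, ?_⟩
      rw [Polynomial.eval₂_map]
      have h1 : (algebraMap ↥Q.toValuationSubring Fc).comp ρ = redB.comp (scHomT A y) := by
        rw [hρ]; rfl
      rw [h1, ← Polynomial.hom_eval₂, h0, map_zero]
    obtain ⟨v, hv⟩ := IsIntegrallyClosed.isIntegral_iff.mp hint
    rw [← hv]
    exact v.2
  let redBQ : ↥B →+* ↥Q.toValuationSubring :=
    redB.codRestrict Q.toValuationSubring.toSubring hmemQ
  let n : Ideal ↥B := Ideal.comap redBQ (IsLocalRing.maximalIdeal ↥Q.toValuationSubring)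
  haveI hn : n.IsPrime := Ideal.comap_isPrime redBQ _
  have hnmem : ∀ f : ↥B, f ∈ n ↔ redB f ∈ Q.toValuationSubring.nonunits := by
    intro f
    rw [ValuationSubring.mem_nonunits_iff_exists_mem_maximalIdeal]
    constructor
    · intro h
      exact ⟨hmemQ f, h⟩
    · rintro ⟨h1, h2⟩
      exact h2
  have hm : ∀ (c : K), c ∈ A.nonunits → ∀ h : algebraMap K F c ∈ B, (⟨_, h⟩ : ↥B) ∈ n := by
    intro c hc h
    rw [hnmem, hredB _ h (hBV h), hredc ⟨c, A.nonunits_le hc⟩ (hBV h),
      hres ⟨c, A.nonunits_le hc⟩ hc, map_zero]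
    rw [ValuationSubring.mem_nonunits_iff, map_zero]
    exact zero_lt_one
  have hya : ∀ h : y - algebraMap K F (a : K) ∈ B, (⟨_, h⟩ : ↥B) ∈ n := by
    intro h
    rw [hnmem, hredB _ h (hBV h)]
    have hcV : algebraMap K F (a : K) ∈ V := by
      have := scHom_mem_scChart A y (C a)
      rw [scHom_C] at this
      exact hBV this
    have h1 : (⟨y - algebraMap K F (a : K), hBV h⟩ : ↥V)
        = ⟨y, hyV⟩ - ⟨algebraMap K F (a : K), hcV⟩ := rfl
    rw [h1, map_sub, hredc a hcV]
    exact haQ
  obtain ⟨P, hP1, hP2⟩ := sc_exists_place A hy hfin a.2 n hm hya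
  refine ⟨P, hP1, ?_⟩
  rintro f hf ⟨c, hc, hval⟩ h
  have := hP2 ⟨f, hf⟩ c hc hval
  rw [hnmem, hredB f hf h] at this
  exact this

end Comp

end Fermat.Agent.H39.ORD
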