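/-
helper39 (P-ORD, block B1, row 1159 B1-D-SURJ): **[SURJ]** for the two components of `X₀(M p)`.

`nmSurjOo : NmSurjOoStatement M p`, `nmSurjZero : NmSurjZeroStatement M p` (unconditional):
every place `Q` of `F_∞` (resp. `F_0`) lies over the centre of a place `P` of `F = ℚ̄(X₀(M p))`.

Proof: `so_surj_abs`, the abstract statement for a valuation ring `V ∋ j` with the soft fields
(`const`, `red_const`, `norm`, `inv`).  If `red j ∈ O_Q`, lift the value `κ = (red j)(Q)` to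
`a ∈ A` and apply `sc_chart_surj` (going-down + Chevalley on the chart `B̄(j)`) : the place `P` has
`j(P) = a ∈ A`, hence its chart is `B̄(j)`.  Otherwise `red j⁻¹ ∈ 𝔪_Q` and the same on the chart
`B̄(j⁻¹)` with `a = 0` gives `P` with `j⁻¹(P) = 0`, so `j(P) ∉ A` and the chart of `P` is `B̄(j⁻¹)`.
-/
import Fermat.Agent.H39.ORD.SurjComp
import Fermat.Agent.H84.ORD.NodalModelRows
import Fermat.Agent.H20.ORD.NmSoft
import Fermat.Agent.H92.ORD.NodalAsm
import Fermat.Agent.H23.Final3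
import Fermat.Agent.H69.DegreeReduction

set_option autoImplicit false
set_option linter.style.haveILetI false
set_option linter.unusedSectionVars false
set_option synthInstance.maxHeartbeats 400000

noncomputable section

open AlgebraicCurve ModularCurve IntermediateField

namespace Fermat.Agent.H39.ORD

open Fermat.Agent.H72.FF Fermat.Agent.H18.ORD Fermat.Agent.H66 Fermat.Agent.H84.ORD

/-- `j` is transcendental over `ℚ̄` -/
theorem so_transcendental_nmJ (N : ℕ) [NeZero N] : Transcendental Qb (nmJ N) := by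
  have h : nmJ N = Fermat.Agent.H23.jBar N := Fermat.Agent.H69.jBarD_one_eq N
  rw [h]
  exact Fermat.Agent.H69.transcendental_jBar N

/-- `F / ℚ̄(j)` is finite -/
theorem so_finite_nmJ (N : ℕ) [NeZero N] : FiniteDimensional Qb⟮nmJ N⟯ (FLb N) := by
  have h : nmJ N = Fermat.Agent.H23.jBar N := Fermat.Agent.H69.jBarD_one_eq N
  rw [h]
  exact (Fermat.Agent.H23.degreeStatement_holds N).2.1

/-- `j(q^d) ∈ V_∞` -/
theorem so_jBarD_mem_gauss (N : ℕ) [NeZero N] (A : ValuationSubring Qb) (d : ℕ) [NeZero d]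
    (hd : d ∣ N) : Fermat.Agent.H23.jBarD N d hd ∈ gaussOBar N A := by
  have h : qExpand (AlgebraicClosure ℚ) d (jqModC (AlgebraicClosure ℚ)) =
      coeffEmb (AlgebraicClosure ℚ) (qExpand ℚ d jq) := by
    rw [coeffEmb, coeffMap_qExpand, ← jqModC_rat, coeffMap_jqModC]
  refine mem_gaussOBar_of_eq_vIota N A (Y := qExpand ↥A d (jqModC ↥A)) ?_
  rw [← qExpand_jqModC_eq_vIota A d, h]
  rfl

theorem so_nmJ_mem_gauss (N : ℕ) [NeZero N] (A : ValuationSubring Qb) :
    nmJ N ∈ gaussOBar N A :=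
  so_jBarD_mem_gauss N A 1 (one_dvd _)

theorem so_nmJ_mem_V0 (M p : ℕ) [NeZero M] [NeZero p] (hcop : Nat.Coprime M p)
    (A : ValuationSubring Qb) : nmJ (M * p) ∈ nmV0 M p hcop A := by
  rw [mem_nmV0_iff]
  obtain ⟨d'', hd0, hd'', h1, -⟩ := (nmW_spec M p hcop).1 1 inferInstance (one_dvd _)
  haveI := hd0
  have h2 : nmW M p hcop (nmJ (M * p)) = Fermat.Agent.H23.jBarD (M * p) d'' hd'' := h1
  rw [h2]
  exact so_jBarD_mem_gauss (M * p) A d'' hd''

/-- **[SURJ], abstract form** : `V ∋ j` a valuation ring of `F` with the soft fields and reduction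
`red : V → F_c`; every place `Q` of degree one of `F_c` lies over the centre of a place of `F`. -/
theorem so_surj_abs (N : ℕ) [NeZero N] (A : ValuationSubring Qb)
    {Fc : Type} [Field Fc] [Algebra (kRes A) Fc]
    (V : Subring (FLb N)) (red : ↥V →+* Fc)
    (hconst : ∀ c : Qb, c ∈ A → algebraMap Qb (FLb N) c ∈ V)
    (hredc : ∀ (c : ↥A) (hc : algebraMap Qb (FLb N) (c : Qb) ∈ V),
      red ⟨_, hc⟩ = algebraMap (kRes A) Fc (IsLocalRing.residue ↥A c))
    (hnorm : ∀ φ : FLb N, φ ≠ 0 → ∃ (c : Qb) (u : ↥V), c ≠ 0 ∧ red u ≠ 0 ∧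
      φ = algebraMap Qb (FLb N) c * (u : FLb N))
    (hinv : ∀ u : ↥V, red u ≠ 0 → (u : FLb N)⁻¹ ∈ V)
    (hjV : nmJ N ∈ V)
    (Q : Place (kRes A) Fc) (hdeg : Q.deg = 1) :
    ∃ P : Place Qb (FLb N), ∀ f ∈ nmCentre A P, ∀ h : f ∈ V,
      red ⟨f, h⟩ ∈ Q.toValuationSubring.nonunits := by
  classical
  have htr := so_transcendental_nmJ N
  have hfin := so_finite_nmJ N
  have hnorm' : ∀ φ : FLb N, φ ≠ 0 → ∃ (c : Qb) (u : FLb N), c ≠ 0 ∧ u ∈ V ∧ u⁻¹ ∈ V ∧
      φ = algebraMap Qb (FLb N) c * u := by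
    intro φ hφ
    obtain ⟨c, u, hc, hu, hcu⟩ := hnorm φ hφ
    exact ⟨c, u, hc, u.2, hinv u hu, hcu⟩
  have hres : ∀ c : ↥A, (c : Qb) ∈ A.nonunits → IsLocalRing.residue ↥A c = 0 := by
    intro c hc
    rw [IsLocalRing.residue_eq_zero_iff]
    obtain ⟨hc', hm⟩ := (ValuationSubring.mem_nonunits_iff_exists_mem_maximalIdeal).1 hc
    exact hm
  have hBV : ∀ y : FLb N, y ∈ V → scChart A y ≤ V := by
    intro y hy f hf
    exact (mem_scValSub A V hconst hnorm' f).1
      (scChart_le_valuationSubring A y (scValSub A V hconst hnorm')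
        (fun c hc => (mem_scValSub A V hconst hnorm' _).2 (hconst c hc))
        ((mem_scValSub A V hconst hnorm' y).2 hy) f hf)
  by_cases hjQ : red ⟨nmJ N, hjV⟩ ∈ Q.toValuationSubring
  · -- the chart `B̄(j)`
    obtain ⟨κ, hκ⟩ := Fermat.Agent.H23.exists_const_sub_mem_maximalIdeal Q hdeg
      ⟨red ⟨nmJ N, hjV⟩, hjQ⟩
    obtain ⟨a, rfl⟩ := IsLocalRing.residue_surjective κ
    have haQ : red ⟨nmJ N, hjV⟩ - algebraMap (kRes A) Fc (IsLocalRing.residue ↥A a) ∈
        Q.toValuationSubring.nonunits := by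
      rw [ValuationSubring.mem_nonunits_iff_exists_mem_maximalIdeal]
      exact ⟨Q.toValuationSubring.sub_mem hjQ (Q.algebraMap_mem' _), hκ⟩
    obtain ⟨P, hP1, hP2⟩ := sc_chart_surj A (IsLocalRing.residue ↥A) hres V red hredc htr hfin
      (hBV _ hjV) Q hjV hjQ a haQ
    refine ⟨P, fun f hf h => ?_⟩
    have hY : nmY A P = nmJ N := by
      rw [nmY, if_pos]
      exact ⟨a, a.2, Or.inr hP1⟩
    rw [mem_nmCentre_iff, hY] at hf
    exact hP2 f hf.1 hf.2 h
  · -- the chart `B̄(j⁻¹)`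
    have hj0 : red ⟨nmJ N, hjV⟩ ≠ 0 := by
      intro h0
      apply hjQ
      rw [h0]
      exact Q.toValuationSubring.zero_mem
    have hjne : nmJ N ≠ 0 := by
      intro h0
      apply hj0
      have : (⟨nmJ N, hjV⟩ : ↥V) = 0 := Subtype.ext h0
      rw [this, map_zero]
    have hiV : (nmJ N)⁻¹ ∈ V := hinv ⟨nmJ N, hjV⟩ hj0
    have hmul : (⟨nmJ N, hjV⟩ : ↥V) * ⟨(nmJ N)⁻¹, hiV⟩ = 1 :=
      Subtype.ext (mul_inv_cancel₀ hjne)
    have hredi : red ⟨(nmJ N)⁻¹, hiV⟩ = (red ⟨nmJ N, hjV⟩)⁻¹ := by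
      have := congrArg red hmul
      rw [map_mul, map_one] at this
      exact eq_inv_of_mul_eq_one_right this
    have hiQ : red ⟨(nmJ N)⁻¹, hiV⟩ ∈ Q.toValuationSubring.nonunits := by
      rw [hredi, ValuationSubring.mem_nonunits_iff, map_inv₀]
      have h1 : ¬ Q.toValuationSubring.valuation (red ⟨nmJ N, hjV⟩) ≤ 1 := fun h =>
        hjQ ((ValuationSubring.valuation_le_one_iff _ _).1 h)
      have h2 : 1 < Q.toValuationSubring.valuation (red ⟨nmJ N, hjV⟩) := not_le.1 h1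
      exact (inv_lt_one₀ (lt_trans zero_lt_one h2)).2 h2
    have htr' : Transcendental Qb (nmJ N)⁻¹ := fun h => htr (IsAlgebraic.inv_iff.mp h)
    have heq : Qb⟮(nmJ N)⁻¹⟯ = Qb⟮nmJ N⟯ := by
      apply le_antisymm
      · rw [adjoin_simple_le_iff]
        exact inv_mem (mem_adjoin_simple_self Qb (nmJ N))
      · rw [adjoin_simple_le_iff]
        have := inv_mem (mem_adjoin_simple_self Qb (nmJ N)⁻¹)
        rwa [inv_inv] at this
    have hfin' : FiniteDimensional Qb⟮(nmJ N)⁻¹⟯ (FLb N) := by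
      rw [heq]
      exact hfin
    have haQ : red ⟨(nmJ N)⁻¹, hiV⟩ - algebraMap (kRes A) Fc (IsLocalRing.residue ↥A 0) ∈
        Q.toValuationSubring.nonunits := by
      rw [map_zero, map_zero, sub_zero]
      exact hiQ
    obtain ⟨P, hP1, hP2⟩ := sc_chart_surj A (IsLocalRing.residue ↥A) hres V red hredc htr' hfin'
      (hBV _ hiV) Q hiV (Q.toValuationSubring.nonunits_le hiQ) 0 haQ
    have hP1' : 1 ≤ P.ord (nmJ N)⁻¹ := by
      have e : (nmJ N)⁻¹ - algebraMap Qb (FLb N) ((0 : ↥A) : Qb) = (nmJ N)⁻¹ := by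
        rw [ZeroMemClass.coe_zero, map_zero, sub_zero]
      rwa [e] at hP1
    have hordj : P.ord (nmJ N) ≤ -1 := by
      rw [P.ord_inv] at hP1'
      omega
    refine ⟨P, fun f hf h => ?_⟩
    have hY : nmY A P = (nmJ N)⁻¹ := by
      rw [nmY, if_neg]
      rintro ⟨c, hc, hv | hv⟩
      · exact htr (hv ▸ isAlgebraic_algebraMap c)
      · by_cases hc0 : c = 0
        · rw [hc0, map_zero, sub_zero] at hv
          omega
        · have hcne : algebraMap Qb (FLb N) c ≠ 0 := fun h0 =>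
            hc0 ((map_eq_zero (algebraMap Qb (FLb N))).1 h0)
          have h1 : P.ord (nmJ N + (-algebraMap Qb (FLb N) c)) = P.ord (nmJ N) :=
            Fermat.Agent.H23.ord_add_eq_of_lt P hjne (neg_ne_zero.2 hcne) (by
              rw [Fermat.Agent.H23.ord_neg, Fermat.Agent.H23.ord_algebraMap]
              omega)
          rw [← sub_eq_add_neg] at h1
          omega
    rw [mem_nmCentre_iff, hY] at hf
    exact hP2 f hf.1 hf.2 h

/-- **[SURJ], component `∞`** (row 1159). -/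
theorem nmSurjOo (M p : ℕ) [NeZero M] [NeZero p] : NmSurjOoStatement M p := by
  intro A h Q
  obtain ⟨s1, s2, s3, s4, s5, s6, s7, s8, -, -, -⟩ := Fermat.Agent.H20.ORD.nmSoft M p A h
  have hpM : ¬ p ∣ M := fun hd =>
    h.prime.one_lt.ne' (Nat.Coprime.eq_one_of_dvd h.cop.symm hd)
  obtain ⟨-, hrr⟩ := Fermat.Agent.H92.ORD.b1_rrHyp_nmF M p h.prime hpM A h.liesOver
  exact so_surj_abs (M * p) A (gaussOBar (M * p) A) (nmRedOo (M * p) A)
    (fun c hc => (s1 c).2 hc) s3 s5 s7 (so_nmJ_mem_gauss (M * p) A) Q (hrr.deg_one Q)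

/-- **[SURJ], component `0`** (row 1159). -/
theorem nmSurjZero (M p : ℕ) [NeZero M] [NeZero p] : NmSurjZeroStatement M p := by
  intro A h Q
  obtain ⟨s1, s2, s3, s4, s5, s6, s7, s8, -, -, -⟩ := Fermat.Agent.H20.ORD.nmSoft M p A h
  have hpM : ¬ p ∣ M := fun hd =>
    h.prime.one_lt.ne' (Nat.Coprime.eq_one_of_dvd h.cop.symm hd)
  obtain ⟨-, hrr⟩ := Fermat.Agent.H92.ORD.b1_rrHyp_nmF M p h.prime hpM A h.liesOver
  exact so_surj_abs (M * p) A (nmV0 M p h.cop A) (nmRed0 M p h.cop A)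
    (fun c hc => (s2 c).2 hc) s4 s6 s8 (so_nmJ_mem_V0 M p h.cop A) Q (hrr.deg_one Q)

end Fermat.Agent.H39.ORD
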