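/-
helper39 (P-ORD, block B1, row 1158 [DVR], step D1 = "valDisc", Dedekind route):
every nontrivial valuation ring containing the constants of a function field `F / K` satisfying
Riemann's hypotheses (`Fermat.Agent.H58.RRHyp`), `K` algebraically closed of ANY characteristic,
is the valuation ring of a place; in particular it is a principal ideal ring.

Proof: a separating element `x` (helper16 `exists_sep_of_rrHyp`), `x` or `x⁻¹` in `V`; the integral
closure of `K[x]` in `F` is a Dedekind domain contained in `V` (the proof of
`Fermat.Agent.H39.valuationRingDVR` with the separability as a hypothesis).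
-/
import Fermat.Agent.H39.ESBValuationRing
import Fermat.Agent.H16.ORD.SepRR

set_option autoImplicit false
set_option linter.style.haveILetI false
set_option linter.unusedSectionVars false

noncomputable section

open AlgebraicCurve IntermediateField Polynomial IsDedekindDomain
open scoped IntermediateField.algebraAdjoinAdjoin

namespace Fermat.Agent.H39.ORD

variable {K F : Type} [Field K] [Field F] [Algebra K F]

/-- The core case (any characteristic): a separating coordinate in the valuation ring. -/
theorem vp_valuationRing_of_mem (y : F)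
    (hy : Transcendental K y) (hfin : FiniteDimensional K⟮y⟯ F)
    (hsep : Algebra.IsSeparable K⟮y⟯ F)
    (V : ValuationSubring F) (hK : ∀ a : K, algebraMap K F a ∈ V) (hV : V ≠ ⊤)
    (hyV : y ∈ V) : ∃ w : Place K F, w.toValuationSubring = V := by
  classical
  let A := Algebra.adjoin K {y}
  let e : K[X] ≃ₐ[K] A := Polynomial.algEquivOfTranscendental K y hy
  have hPIR : IsPrincipalIdealRing A :=
    IsPrincipalIdealRing.of_surjective e.toRingEquiv.toRingHom e.surjective
  have hDA : IsDedekindDomain A := inferInstance
  let B := integralClosure A F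
  have hDB : IsDedekindDomain B := integralClosure.isDedekindDomain A K⟮y⟯ F
  have hFB : IsFractionRing B F := integralClosure.isFractionRing_of_finite_extension K⟮y⟯ F
  have hKBF : IsScalarTower K B F := IsScalarTower.of_algebraMap_eq (fun c => rfl)
  have hAV : ∀ a : A, (a : F) ∈ V := by
    intro a
    have ha : (a : F) ∈ Algebra.adjoin K {y} := a.2
    rw [Algebra.adjoin_singleton_eq_range_aeval] at ha
    obtain ⟨q, hq⟩ := ha
    rw [← hq]
    show aeval y q ∈ _
    rw [Polynomial.aeval_eq_sum_range]
    refine sum_mem (fun i _ => ?_)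
    rw [Algebra.smul_def]
    exact mul_mem (hK _) (pow_mem hyV _)
  have hBV : ∀ b : B, algebraMap B F b ∈ V := by
    intro b
    let ψ : A →+* V := (algebraMap A F).codRestrict V.toSubring hAV
    let _ : Algebra A V := ψ.toAlgebra
    have : IsScalarTower A V F := IsScalarTower.of_algebraMap_eq (fun a => rfl)
    have hb : IsIntegral A (algebraMap B F b) := b.2
    have hb' : IsIntegral V (algebraMap B F b) := hb.tower_top
    obtain ⟨a, ha⟩ := IsIntegrallyClosed.isIntegral_iff.mp hb'
    rw [← ha]
    exact a.2
  obtain ⟨w, hw⟩ :=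
    Fermat.Agent.H39.esb_exists_heightOneSpectrum_of_le (F := F) (R := B) V hV hBV
  exact ⟨Place.ofHeightOneSpectrum (K := K) (F := F) (R := B) w, hw⟩

/-- Any characteristic: a separating coordinate; `x` or `x⁻¹` lies in `V`. -/
theorem vp_valuationRing_of_sep (x : F)
    (hx : Transcendental K x) (hfin : FiniteDimensional K⟮x⟯ F)
    (hsep : Algebra.IsSeparable K⟮x⟯ F)
    (V : ValuationSubring F) (hK : ∀ a : K, algebraMap K F a ∈ V) (hV : V ≠ ⊤) :
    ∃ w : Place K F, w.toValuationSubring = V := by
  by_cases hxV : x ∈ V
  · exact vp_valuationRing_of_mem x hx hfin hsep V hK hV hxV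
  · have hxinv : x⁻¹ ∈ V := (V.mem_or_inv_mem x).resolve_left hxV
    have htr : Transcendental K x⁻¹ := fun h => hx (IsAlgebraic.inv_iff.mp h)
    have heq : K⟮x⁻¹⟯ = K⟮x⟯ := by
      apply le_antisymm
      · rw [adjoin_simple_le_iff]
        exact inv_mem (mem_adjoin_simple_self K x)
      · rw [adjoin_simple_le_iff]
        have := inv_mem (mem_adjoin_simple_self K x⁻¹)
        rwa [inv_inv] at this
    have hfin' : FiniteDimensional K⟮x⁻¹⟯ F := by
      rw [heq]; exact hfin
    have hsep' : Algebra.IsSeparable K⟮x⁻¹⟯ F := by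
      rw [heq]; exact hsep
    exact vp_valuationRing_of_mem x⁻¹ htr hfin' hsep' V hK hV hxinv

/-- **D1 (`valDisc`), place form** : every nontrivial valuation ring containing the constants is
the valuation ring of a place. -/
theorem vp_exists_place [IsAlgClosed K] (hRR : Fermat.Agent.H58.RRHyp K F)
    (V : ValuationSubring F) (hK : ∀ c : K, algebraMap K F c ∈ V) (hV : V ≠ ⊤) :
    ∃ Q : Place K F, Q.toValuationSubring = V := by
  obtain ⟨x, hfin, hsep⟩ := Fermat.Agent.H16.ORD.exists_sep_of_rrHyp hRR
  haveI := hfin
  have hx : Transcendental K x := by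
    intro halg
    obtain ⟨f, hf⟩ := hRR.exists_nonconstant
    haveI h1 : Algebra.IsAlgebraic K K⟮x⟯ :=
      IntermediateField.isAlgebraic_adjoin_simple halg.isIntegral
    haveI h2 : Algebra.IsAlgebraic K⟮x⟯ F := Algebra.IsAlgebraic.of_finite K⟮x⟯ F
    have h3 : Algebra.IsAlgebraic K F := Algebra.IsAlgebraic.trans K K⟮x⟯ F
    obtain ⟨c, hc⟩ := Fermat.Agent.H16.ORD.sep_const_of_isAlgebraic (h3.isAlgebraic f)
    exact hf c hc.symm
  exact vp_valuationRing_of_sep x hx hfin hsep V hK hV

/-- **D1 (`valDisc`)** : every nontrivial valuation ring containing the constants is a principal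
ideal ring. -/
theorem vp_valDisc [IsAlgClosed K] (hRR : Fermat.Agent.H58.RRHyp K F)
    (V : ValuationSubring F) (hK : ∀ c : K, algebraMap K F c ∈ V) (hV : V ≠ ⊤) :
    IsPrincipalIdealRing V := by
  obtain ⟨Q, hQ⟩ := vp_exists_place hRR V hK hV
  rw [← hQ]
  exact Q.isPrincipalIdealRing'

end Fermat.Agent.H39.ORD
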